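import Fermat.Agent.H72.FDT.Interfaces
import Fermat.Agent.H79.GlobalRamified
import Fermat.Agent.H8.RelGalois

/-!
# P-FDT, FDT-E: from the finite-level Frobenius density statement to the prelude language

`frobPow_of_finite : FrobPowFiniteStatement → FrobPowStatement`.

Given a finite-dimensional `F ⊆ ℚ̄`, pass to its normal closure `L₀`, apply the finite-level
statement to `g|_{L₀}`, choose a valuation subring `A` of `ℚ̄` whose maximal ideal contains the
prime `P` of `𝓞 L₀`, take a Frobenius element `σ₀` at `A`, and correct it by an element of the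
inertia group of `A` (inertia surjects onto the inertia group of `P`) so that it restricts to the
prescribed arithmetic Frobenius `τ` on `L₀`.  No unramifiedness is needed.
-/

set_option autoImplicit false
set_option linter.style.haveILetI false

namespace Fermat.Agent.H54

open scoped NumberField Pointwise
open Fermat.Agent.H53

/-- The finite-level statement for an arbitrary `ℚ`-algebra instance on `L`, with the Frobenius
congruence expressed inside `L`. -/
theorem frobPowFinite_anyAlgebra (h : Fermat.Agent.H72.FrobPowFiniteStatement)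
    (L : Type) [Field L] [CharZero L] [inst : Algebra ℚ L] [FiniteDimensional ℚ L]
    [IsGalois ℚ L] (g : L ≃ₐ[ℚ] L) (S : Finset ℕ) :
    ∃ ℓ : ℕ, ℓ.Prime ∧ ℓ ∉ S ∧ ∃ P : Ideal (𝓞 L), P.IsPrime ∧ (ℓ : 𝓞 L) ∈ P ∧
      ∃ (τ : L ≃ₐ[ℚ] L) (k j : ℕ),
        (∀ x : 𝓞 L, ∃ y ∈ P, τ (x : L) - (x : L) ^ ℓ = (y : L)) ∧ g = τ ^ k ∧ τ = g ^ j := by
  obtain rfl : inst = DivisionRing.toRatAlgebra := Subsingleton.elim _ _
  haveI : NumberField L := ⟨⟩
  obtain ⟨ℓ, hℓ, hS, P, hP, hℓP, τ, k, j, hτ, hg, hτg⟩ := h L g S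
  exact ⟨ℓ, hℓ, hS, P, hP, hℓP, τ, k, j, fun x => ⟨_, hτ x, rfl⟩, hg, hτg⟩

/-- A prime of the ring of integers of a subfield of `ℚ̄` containing `ℓ` lies under the maximal
ideal of some valuation subring of `ℚ̄` over `ℓ`. -/
theorem exists_valuationSubring_over_prime (L0 : IntermediateField ℚ (AlgebraicClosure ℚ))
    (P : Ideal (𝓞 L0)) [hP : P.IsPrime] {ℓ : ℕ} (hℓP : (ℓ : 𝓞 L0) ∈ P) :
    ∃ A : ValuationSubring (AlgebraicClosure ℚ), A.LiesOverPrime ℓ ∧
      ∀ x : 𝓞 L0, x ∈ P → (((x : L0) : AlgebraicClosure ℚ)) ∈ A.nonunits := by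
  let φ : 𝓞 L0 →+* AlgebraicClosure ℚ :=
    (algebraMap L0 (AlgebraicClosure ℚ)).comp (algebraMap (𝓞 L0) L0)
  have hφ : Function.Injective φ :=
    (algebraMap L0 (AlgebraicClosure ℚ)).injective.comp NumberField.RingOfIntegers.coe_injective
  have hI : P.map φ.rangeRestrict ≠ ⊤ := by
    intro htop
    have h1 : (1 : φ.range) ∈ P.map φ.rangeRestrict := htop ▸ Submodule.mem_top
    obtain ⟨p, hp, hp1⟩ :=
      (Ideal.mem_map_iff_of_surjective φ.rangeRestrict φ.rangeRestrict_surjective).mp h1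
    have h2 : φ p = φ 1 := by
      have := congrArg Subtype.val hp1
      simpa using this
    rw [hφ h2] at hp
    exact hP.ne_top ((Ideal.eq_top_iff_one P).mpr hp)
  obtain ⟨A, -, hA⟩ := Ideal.image_subset_nonunits_valuationSubring _ hI
  have key : ∀ x : 𝓞 L0, x ∈ P → φ x ∈ A.nonunits := fun x hx =>
    hA ⟨φ.rangeRestrict x, Ideal.mem_map_of_mem _ hx, rfl⟩
  refine ⟨A, ?_, key⟩
  have := key _ hℓP
  simpa [φ, ValuationSubring.LiesOverPrime] using this

/-- Multiplying a Frobenius element by an element of inertia gives a Frobenius element. -/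
theorem isFrobeniusAt_mul_of_mem_inertiaSubgroupIn {K L : Type*} [Field K] [Field L]
    [Algebra K L] {A : ValuationSubring L} {σ ι : L ≃ₐ[K] L} {ℓ : ℕ}
    (hσ : A.IsFrobeniusAt σ ℓ) (hι : ι ∈ A.inertiaSubgroupIn K) :
    A.IsFrobeniusAt (σ * ι) ℓ := by
  obtain ⟨hσD, hσF⟩ := hσ
  obtain ⟨d, hd, rfl⟩ := hι
  refine ⟨mul_mem hσD d.2, fun x => ?_⟩
  have h1 : (⟨σ * (A.decompositionSubgroup K).subtype d, mul_mem hσD d.2⟩ :
      A.decompositionSubgroup K) = ⟨σ, hσD⟩ * d := rfl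
  have h2 : d • x = x := by
    have h3 : MulSemiringAction.toRingAut (A.decompositionSubgroup K)
        (IsLocalRing.ResidueField A) d = 1 := MonoidHom.mem_ker.mp hd
    exact congrArg (fun f : RingAut (IsLocalRing.ResidueField A) => f x) h3
  rw [h1, mul_smul, h2]
  exact hσF x

/-- A Frobenius element satisfies the Frobenius congruence on the valuation ring. -/
theorem IsFrobeniusAt_sub_pow_mem_nonunits {K L : Type*} [Field K] [Field L]
    [Algebra K L] {A : ValuationSubring L} {σ : L ≃ₐ[K] L} {ℓ : ℕ}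
    (hσ : A.IsFrobeniusAt σ ℓ) {a : L} (ha : a ∈ A) : σ a - a ^ ℓ ∈ A.nonunits := by
  obtain ⟨hσD, hσF⟩ := hσ
  have h1 := hσF (IsLocalRing.residue A ⟨a, ha⟩)
  rw [← IsLocalRing.ResidueField.residue_smul, ← map_pow, ← sub_eq_zero, ← map_sub,
    IsLocalRing.residue_eq_zero_iff, ← ValuationSubring.coe_mem_nonunits_iff] at h1
  exact h1

/-- **FDT-E.**  The finite-level Frobenius density statement implies its form in the language
of the prelude (valuation subrings of `ℚ̄` and `IsFrobeniusAt`). -/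
theorem frobPow_of_finite (h : Fermat.Agent.H72.FrobPowFiniteStatement) :
    Fermat.Agent.H72.FrobPowStatement := by
  intro F hF g S
  haveI := hF
  haveI hGalΩ : IsGalois ℚ (AlgebraicClosure ℚ) := isGalois_algebraicClosure_rat
  let L0 : IntermediateField ℚ (AlgebraicClosure ℚ) :=
    IntermediateField.normalClosure ℚ F (AlgebraicClosure ℚ)
  have hFL0 : F ≤ L0 := IntermediateField.le_normalClosure F
  haveI hfin : FiniteDimensional ℚ L0 := normalClosure.is_finiteDimensional ℚ F _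
  haveI hnor : Normal ℚ L0 := normalClosure.normal ℚ F _
  haveI hgal : IsGalois ℚ L0 := ⟨⟩
  let r : (AlgebraicClosure ℚ ≃ₐ[ℚ] AlgebraicClosure ℚ) →* (L0 ≃ₐ[ℚ] L0) :=
    AlgEquiv.restrictNormalHom (F := ℚ) (K₁ := AlgebraicClosure ℚ) L0
  have hr : ∀ (σ : AlgebraicClosure ℚ ≃ₐ[ℚ] AlgebraicClosure ℚ) (x : L0),
      ((r σ x : L0) : AlgebraicClosure ℚ) = σ (x : AlgebraicClosure ℚ) :=
    fun σ x => AlgEquiv.restrictNormalHom_apply L0 σ x
  obtain ⟨ℓ, hℓ, hS, P, hP, hℓP, τ, k, j, hτ, hg, hτg⟩ :=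
    frobPowFinite_anyAlgebra h L0 (r g) S
  haveI := hP
  obtain ⟨A, hA, hPA⟩ := exists_valuationSubring_over_prime L0 P hℓP
  obtain ⟨σ₀, hσ₀⟩ := exists_isFrobeniusAt_algebraicClosure hℓ A hA
  obtain ⟨τ', hτ'⟩ := AlgEquiv.restrictNormalHom_surjective (F := ℚ) (K₁ := L0)
    (AlgebraicClosure ℚ) τ
  have hσ₀D := hσ₀.mem_decompositionSubgroup
  haveI : L0.fixingSubgroup.Normal := IsGalois.fixingSubgroup_normal_of_isGalois L0
  have hres : ∀ b : intRing (AlgebraicClosure ℚ), (∀ n ∈ L0.fixingSubgroup, n • b = b) →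
      (σ₀⁻¹ * τ') • b - b ∈ centerIdeal A := by
    intro b hb
    rw [mem_centerIdeal_iff]
    have hbL0 : (b : AlgebraicClosure ℚ) ∈ L0 := by
      rw [← InfiniteGalois.fixedField_fixingSubgroup L0, IntermediateField.mem_fixedField_iff]
      intro n hn
      exact congrArg Subtype.val (hb n hn)
    have hbint : IsIntegral ℤ (⟨(b : AlgebraicClosure ℚ), hbL0⟩ : L0) := by
      have hb' : IsIntegral ℤ (b : AlgebraicClosure ℚ) := b.2
      exact (isIntegral_algebraMap_iff (B := AlgebraicClosure ℚ)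
        (algebraMap L0 (AlgebraicClosure ℚ)).injective).mp hb'
    obtain ⟨y, hyP, hy⟩ := hτ ⟨⟨(b : AlgebraicClosure ℚ), hbL0⟩, hbint⟩
    have hy' := congrArg (fun z : L0 => (z : AlgebraicClosure ℚ)) hy
    have hτb : ((τ ⟨(b : AlgebraicClosure ℚ), hbL0⟩ : L0) : AlgebraicClosure ℚ) =
        τ' (b : AlgebraicClosure ℚ) := by
      rw [← hτ']
      exact hr τ' ⟨(b : AlgebraicClosure ℚ), hbL0⟩
    have h1 : τ' (b : AlgebraicClosure ℚ) - (b : AlgebraicClosure ℚ) ^ ℓ ∈ A.nonunits := by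
      have h2 := hPA y hyP
      have h3 : τ' (b : AlgebraicClosure ℚ) - (b : AlgebraicClosure ℚ) ^ ℓ =
          ((y : L0) : AlgebraicClosure ℚ) := by
        rw [← hτb]
        exact hy'
      rw [h3]
      exact h2
    have h4 : σ₀ (b : AlgebraicClosure ℚ) - (b : AlgebraicClosure ℚ) ^ ℓ ∈ A.nonunits :=
      IsFrobeniusAt_sub_pow_mem_nonunits hσ₀ (intRing_le A b.2)
    have h5 : τ' (b : AlgebraicClosure ℚ) - σ₀ (b : AlgebraicClosure ℚ) ∈ A.nonunits := by
      have := sub_mem h1 h4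
      simpa using this
    have h6 : (((σ₀⁻¹ * τ') • b - b : intRing (AlgebraicClosure ℚ)) : AlgebraicClosure ℚ) =
        σ₀⁻¹ (τ' (b : AlgebraicClosure ℚ) - σ₀ (b : AlgebraicClosure ℚ)) := by
      rw [AddSubgroupClass.coe_sub, intRing_coe_smul, map_sub, AlgEquiv.mul_apply]
      congr 1
      show (b : AlgebraicClosure ℚ) = σ₀⁻¹ (σ₀ (b : AlgebraicClosure ℚ))
      rw [← AlgEquiv.mul_apply, inv_mul_cancel, AlgEquiv.one_apply]
    rw [h6, Fermat.Agent.H8.apply_mem_nonunits_iff_of_mem_decomposition A (inv_mem hσ₀D)]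
    exact h5
  obtain ⟨n, hn, hι⟩ := Fermat.Agent.H79.exists_mul_mem_inertiaSubgroupIn hℓ A hA
    L0.fixingSubgroup (InfiniteGalois.fixingSubgroup_isClosed L0) (σ₀⁻¹ * τ') hres
  have hσ := isFrobeniusAt_mul_of_mem_inertiaSubgroupIn hσ₀ hι
  have hrn : r n = 1 := by
    refine AlgEquiv.ext fun x => Subtype.ext ?_
    rw [hr n x]
    exact (IntermediateField.mem_fixingSubgroup_iff L0 n).mp hn x x.2
  have hrσ : r (σ₀ * (n * (σ₀⁻¹ * τ'))) = τ := by
    rw [map_mul, map_mul, map_mul, map_inv, hrn, one_mul, mul_inv_cancel_left]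
    exact hτ'
  refine ⟨ℓ, A, σ₀ * (n * (σ₀⁻¹ * τ')), k, j, hℓ, hS, hA, hσ, ?_, ?_⟩
  · intro x hx
    have h1 : r g = r ((σ₀ * (n * (σ₀⁻¹ * τ'))) ^ k) := by rw [map_pow, hrσ, hg]
    have h2 := congrArg (fun f : L0 ≃ₐ[ℚ] L0 =>
      ((f ⟨x, hFL0 hx⟩ : L0) : AlgebraicClosure ℚ)) h1
    simpa only [hr] using h2
  · intro x hx
    have h1 : r (σ₀ * (n * (σ₀⁻¹ * τ'))) = r (g ^ j) := by rw [map_pow, hrσ, hτg]
    have h2 := congrArg (fun f : L0 ≃ₐ[ℚ] L0 =>
      ((f ⟨x, hFL0 hx⟩ : L0) : AlgebraicClosure ℚ)) h1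
    simpa only [hr] using h2

end Fermat.Agent.H54
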