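import Fermat.Agent.H54.CycloKummerDedekind
import Fermat.Agent.H75.PIDSeven

/-!
# `ℤ[ζ₁₁]` is a principal ideal domain (helper54)

Minkowski bound `< 59`; the only prime powers `q ^ f ≤ 58` with `q ^ f ≡ 1 mod 11` are `23`,
and the prime `span {23, θ - 4}` above `23` is generated by `1 + θ + θ³` (norm `23`).
-/

set_option autoImplicit false

namespace Fermat.Agent.H54

open NumberField Polynomial InfinitePlace Nat Real Ideal IsCyclotomicExtension.Rat

variable (K : Type) [Field K] [NumberField K] [IsCyclotomicExtension {11} ℚ K]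

local instance fact_prime_eleven : Fact (Nat.Prime 11) := ⟨by norm_num⟩

theorem theta_eleven_rel :
    1 + theta 11 K + theta 11 K ^ 2 + theta 11 K ^ 3 + theta 11 K ^ 4 + theta 11 K ^ 5
      + theta 11 K ^ 6 + theta 11 K ^ 7 + theta 11 K ^ 8 + theta 11 K ^ 9 + theta 11 K ^ 10
      = 0 := by
  have h := sum_theta_pow 11 K
  simpa [Finset.sum_range_succ] using h

theorem exists_principal_prime_over_23 :
    ∃ P ∈ primesOver (span {((23 : ℕ) : ℤ)}) (𝓞 K), Submodule.IsPrincipal P := by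
  have : Fact (Nat.Prime 23) := ⟨by norm_num⟩
  have hrel := theta_eleven_rel K
  set t := theta 11 K with ht
  refine exists_principal_prime_over_of_cert 11 K 23 (4) ?_
    (1 + t + t ^ 3)
    (-2 - 14 * t - 17 * t ^ 2 - 12 * t ^ 3 - 5 * t ^ 4 - 9 * t ^ 5 - 10 * t ^ 6 - 16 * t ^ 7 - 6 * t ^ 8 - 15 * t ^ 9)
    (1 + 3 * t + 3 * t ^ 2 + 2 * t ^ 3 + t ^ 4 + 2 * t ^ 5 + 2 * t ^ 6 + 3 * t ^ 7 + t ^ 8 + 3 * t ^ 9)
    (3)
    (17 + 4 * t + t ^ 2) ?_ ?_ ?_
  · decide
  · push_cast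
    linear_combination (-25 + 9 * t - 15 * t ^ 2) * hrel
  · push_cast
    linear_combination (5 - 2 * t + 3 * t ^ 2) * hrel
  · push_cast
    ring

/-- A prime power `q ^ f ≤ 58` with `f ≥ 1` that is `≡ 1 mod 11` has `q = 23`. -/
theorem prime_pow_mod_eleven (q f : ℕ) (hq : q.Prime) (hf : 0 < f) (hle : q ^ f ≤ 58)
    (hmod : q ^ f % 11 = 1) : q = 23 := by
  have hq2 : 2 ≤ q := hq.two_le
  have hf5 : f ≤ 5 := by
    by_contra hcon
    have hcon' : 6 ≤ f := by omega
    have h1 : 2 ^ 6 ≤ q ^ f :=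
      calc 2 ^ 6 ≤ 2 ^ f := Nat.pow_le_pow_right (by norm_num) hcon'
        _ ≤ q ^ f := Nat.pow_le_pow_left hq2 f
    omega
  have hqle : q ≤ 58 := le_trans (Nat.le_self_pow hf.ne' q) hle
  have hcases : f = 1 ∨ f = 2 ∨ f = 3 ∨ f = 4 ∨ f = 5 := by omega
  rcases hcases with rfl | rfl | rfl | rfl | rfl
  · rw [pow_one] at hle hmod
    have hlist : q = 12 ∨ q = 23 ∨ q = 34 ∨ q = 45 ∨ q = 56 := by omega
    rcases hlist with rfl | rfl | rfl | rfl | rfl
    · exfalso; revert hq; norm_num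
    · rfl
    · exfalso; revert hq; norm_num
    · exfalso; revert hq; norm_num
    · exfalso; revert hq; norm_num
  · have hq7 : q ≤ 7 := by
      by_contra hcon
      have hcon' : 8 ≤ q := by omega
      have : 8 ^ 2 ≤ q ^ 2 := Nat.pow_le_pow_left hcon' 2
      omega
    interval_cases q <;> omega
  · have hq3 : q ≤ 3 := by
      by_contra hcon
      have hcon' : 4 ≤ q := by omega
      have : 4 ^ 3 ≤ q ^ 3 := Nat.pow_le_pow_left hcon' 3
      omega
    interval_cases q <;> omega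
  · have hq2' : q ≤ 2 := by
      by_contra hcon
      have hcon' : 3 ≤ q := by omega
      have : 3 ^ 4 ≤ q ^ 4 := Nat.pow_le_pow_left hcon' 4
      omega
    interval_cases q <;> omega
  · have hq2' : q ≤ 2 := by
      by_contra hcon
      have hcon' : 3 ≤ q := by omega
      have : 3 ^ 5 ≤ q ^ 5 := Nat.pow_le_pow_left hcon' 5
      omega
    interval_cases q <;> omega

/-- The Minkowski bound of the `11`-th cyclotomic field is less than `59`. -/
theorem minkowski_eleven_lt :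
    (4 / π) ^ nrComplexPlaces K *
      ((Module.finrank ℚ K)! / (Module.finrank ℚ K) ^ (Module.finrank ℚ K) * √|discr K|) < 59 := by
  rw [discr_prime 11 K, IsCyclotomicExtension.finrank (n := 11) K
    (cyclotomic.irreducible_rat (by simp)), nrComplexPlaces_eq_totient_div_two 11,
    totient_prime (by norm_num : Nat.Prime 11)]
  have h10 : (10 : ℕ)! = 3628800 := by decide
  simp only [h10]
  norm_num
  have hsq : √(2357947691 : ℝ) < 48559 := by
    rw [Real.sqrt_lt' (by norm_num)]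
    norm_num
  have hpi : (4 / π) < 1.2733 := by
    rw [div_lt_iff₀ Real.pi_pos]
    have := Real.pi_gt_d4
    linarith
  have hpi0 : (0 : ℝ) ≤ 4 / π := by positivity
  have h3 : (4 / π) ^ 5 < 1.2733 ^ 5 := by gcongr
  have hsq0 : (0:ℝ) ≤ √(2357947691 : ℝ) := Real.sqrt_nonneg _
  have hpos : (0:ℝ) < (4 / π) ^ 5 := by positivity
  calc (4 / π) ^ 5 * (567 / 1562500 * √2357947691)
      ≤ (4 / π) ^ 5 * (567 / 1562500 * 48559) := by gcongr
    _ < 1.2733 ^ 5 * (567 / 1562500 * 48559) := by gcongr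
    _ < 59 := by norm_num

/-- The ring of integers of the `11`-th cyclotomic field is a principal ideal domain. -/
theorem pid_eleven : IsPrincipalIdealRing (𝓞 K) := by
  have : IsGalois ℚ K := IsCyclotomicExtension.isGalois {11} ℚ K
  have hM : ⌊(4 / π) ^ nrComplexPlaces K *
      ((Module.finrank ℚ K)! / (Module.finrank ℚ K) ^ (Module.finrank ℚ K) * √|discr K|)⌋₊
        < 59 := by
    rw [Nat.floor_lt (by positivity)]
    exact_mod_cast minkowski_eleven_lt K
  apply RingOfIntegers.isPrincipalIdealRing_of_isPrincipal_of_lt_or_isPrincipal_of_mem_primesOver_of_mem_Icc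
  intro q hq hqprime
  rw [Finset.mem_Icc] at hq
  have : Fact q.Prime := ⟨hqprime⟩
  by_cases hq11 : q = 11
  · subst hq11
    have hζ := IsCyclotomicExtension.zeta_spec 11 ℚ K
    obtain ⟨⟨P, hP1, hP2⟩⟩ := (span {((11 : ℕ) : ℤ)}).nonempty_primesOver (S := 𝓞 K)
    refine ⟨P, ⟨hP1, hP2⟩, Or.inr ?_⟩
    rw [eq_span_zeta_sub_one_of_liesOver' 11 K hζ P]
    exact ⟨⟨hζ.toInteger - 1, rfl⟩⟩
  by_cases hsp : q = 23
  · subst hsp
    obtain ⟨P, hP, hprinc⟩ := exists_principal_prime_over_23 K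
    exact ⟨P, hP, Or.inr hprinc⟩
  · obtain ⟨⟨P, hP1, hP2⟩⟩ := (span {(q : ℤ)}).nonempty_primesOver (S := 𝓞 K)
    refine ⟨P, ⟨hP1, hP2⟩, Or.inl ?_⟩
    have hmod := Fermat.Agent.H75.pow_inertiaDeg_mod_eq_one 11 K q hq11 P
    have hpos : 0 < P.inertiaDeg ℤ := Ideal.inertiaDeg_pos P ℤ
    by_contra hcon
    have hle : q ^ P.inertiaDeg ℤ ≤ 58 := by omega
    exact hsp (prime_pow_mod_eleven q _ hqprime hpos hle hmod)

end Fermat.Agent.H54
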