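import Fermat.Agent.H54.PIDThirteenThree
import Fermat.Agent.H75.PIDThirteenReduction

/-!
# `ℤ[ζ₁₃]` is a principal ideal domain (helper54 + helper75)

Assembly of `Fermat.Agent.H75.pid_thirteen_of` (Minkowski bound and elimination of primes) with
the explicit principal primes above `3, 53, 79, 131, 157` from `Fermat.Agent.H54`.
-/

set_option autoImplicit false

namespace Fermat.Agent.H54

open NumberField Ideal

/-- The ring of integers of the `13`-th cyclotomic field is a principal ideal domain. -/
theorem pid_thirteen (K : Type) [Field K] [NumberField K] [IsCyclotomicExtension {13} ℚ K] :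
    IsPrincipalIdealRing (𝓞 K) := by
  apply Fermat.Agent.H75.pid_thirteen_of K
  rintro q (rfl | rfl | rfl | rfl | rfl)
  · exact exists_principal_prime_over_3 K
  · exact exists_principal_prime_over_53 K
  · exact exists_principal_prime_over_79 K
  · exact exists_principal_prime_over_131 K
  · exact exists_principal_prime_over_157 K

end Fermat.Agent.H54
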