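import Mathlib

/-!
# Kummer–Dedekind wrapper for prime cyclotomic fields (helper54)

For `K = ℚ(ζ_p)` and `θ = ζ_p` viewed in `𝓞 K`, and a prime `q`:
if `Q : ℤ[X]` reduces mod `q` to a monic irreducible factor of `Φ_p mod q`, then
`span {q, Q(θ)}` is a prime ideal of `𝓞 K` lying over `q`.
In particular, if `a : ℤ` is a root of `Φ_p` mod `q` then `span {q, θ - a}` is a prime over `q`,
and it is principal as soon as one exhibits `α` with `α ∣ q`, `α ∣ θ - a`, `α ∈ span {q, θ - a}`.
-/

set_option autoImplicit false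

namespace Fermat.Agent.H54

open NumberField Polynomial Ideal RingOfIntegers NumberField.Ideal

section generic

variable (p : ℕ) [hp : Fact p.Prime] (K : Type) [Field K] [NumberField K]
  [hK : IsCyclotomicExtension {p} ℚ K]

/-- The chosen primitive `p`-th root of unity of `K`, as an element of `𝓞 K`. -/
noncomputable def theta : 𝓞 K :=
  haveI : NeZero p := ⟨hp.out.ne_zero⟩
  (IsCyclotomicExtension.zeta_spec p ℚ K).toInteger

theorem exponent_theta : exponent (theta p K) = 1 := by
  have : NeZero p := ⟨hp.out.ne_zero⟩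
  exact exponent_eq_one_iff.mpr <|
    IsCyclotomicExtension.Rat.adjoin_singleton_eq_top (IsCyclotomicExtension.zeta_spec p ℚ K)

theorem minpoly_theta : minpoly ℤ (theta p K) = cyclotomic p ℤ := by
  have : NeZero p := ⟨hp.out.ne_zero⟩
  rw [cyclotomic_eq_minpoly (IsCyclotomicExtension.zeta_spec p ℚ K) hp.out.pos,
    ← RingOfIntegers.minpoly_coe]
  rfl

theorem sum_theta_pow : ∑ i ∈ Finset.range p, (theta p K) ^ i = 0 := by
  have h := minpoly.aeval ℤ (theta p K)
  rw [minpoly_theta, cyclotomic_prime] at h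
  simpa using h

theorem not_dvd_exponent_theta (q : ℕ) [hq : Fact q.Prime] : ¬ q ∣ exponent (theta p K) := by
  rw [exponent_theta]
  exact hq.out.not_dvd_one

/-- Kummer–Dedekind: `span {q, Q(θ)}` is a prime over `q` when `Q mod q` is a monic irreducible
factor of `Φ_p mod q`. -/
theorem span_pair_mem_primesOver (q : ℕ) [hq : Fact q.Prime] (Q : ℤ[X])
    (hirr : Irreducible (Q.map (Int.castRingHom (ZMod q))))
    (hmonic : (Q.map (Int.castRingHom (ZMod q))).Monic)
    (hdvd : Q.map (Int.castRingHom (ZMod q)) ∣ cyclotomic p (ZMod q)) :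
    span {(q : 𝓞 K), aeval (theta p K) Q} ∈ primesOver (span {(q : ℤ)}) (𝓞 K) := by
  classical
  have hQ : Q.map (Int.castRingHom (ZMod q)) ∈ monicFactorsMod (theta p K) q := by
    rw [Multiset.mem_toFinset, Polynomial.mem_normalizedFactors_iff
      (map_monic_ne_zero (minpoly.monic (theta p K).isIntegral))]
    refine ⟨hirr, hmonic, ?_⟩
    rw [minpoly_theta, map_cyclotomic]
    exact hdvd
  rw [← primesOverSpanEquivMonicFactorsMod_symm_apply_eq_span (not_dvd_exponent_theta p K q) hQ]
  exact ((primesOverSpanEquivMonicFactorsMod (not_dvd_exponent_theta p K q)).symm ⟨_, hQ⟩).prop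

/-- Linear case: if `a` is a root of `Φ_p` modulo `q`, then `span {q, θ - a}` is a prime over `q`. -/
theorem span_pair_linear_mem_primesOver (q : ℕ) [hq : Fact q.Prime] (a : ℤ)
    (ha : (q : ℤ) ∣ ∑ i ∈ Finset.range p, a ^ i) :
    span {(q : 𝓞 K), theta p K - (a : 𝓞 K)} ∈ primesOver (span {(q : ℤ)}) (𝓞 K) := by
  have hmap : (X - C a : ℤ[X]).map (Int.castRingHom (ZMod q)) = X - C (a : ZMod q) := by
    simp
  have h := span_pair_mem_primesOver p K q (X - C a)
    (by rw [hmap]; exact irreducible_X_sub_C _)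
    (by rw [hmap]; exact monic_X_sub_C _)
    (by
      rw [hmap, dvd_iff_isRoot, IsRoot.def, cyclotomic_prime, eval_finsetSum]
      simp only [eval_pow, eval_X]
      have := (ZMod.intCast_zmod_eq_zero_iff_dvd _ q).mpr ha
      simpa using this)
  simpa using h

/-- Principal-generator criterion: a root `a` of `Φ_p` mod `q` together with `α` dividing both
`q` and `θ - a`, and lying in `span {q, θ - a}`, gives a principal prime over `q`. -/
theorem exists_principal_prime_over_of_cert (q : ℕ) [hq : Fact q.Prime] (a : ℤ)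
    (ha : (q : ℤ) ∣ ∑ i ∈ Finset.range p, a ^ i)
    (α β γ δ ε : 𝓞 K)
    (h1 : α * β = (q : 𝓞 K)) (h2 : α * γ = theta p K - (a : 𝓞 K))
    (h3 : α = (q : 𝓞 K) * δ + (theta p K - (a : 𝓞 K)) * ε) :
    ∃ P ∈ primesOver (span {(q : ℤ)}) (𝓞 K), Submodule.IsPrincipal P := by
  refine ⟨_, span_pair_linear_mem_primesOver p K q a ha, ⟨α, ?_⟩⟩
  change span {(q : 𝓞 K), theta p K - (a : 𝓞 K)} = span {α}
  apply le_antisymm
  · rw [span_le]
    rintro x hx
    rcases hx with rfl | hx
    · exact mem_span_singleton.mpr ⟨β, h1.symm⟩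
    · rw [Set.mem_singleton_iff] at hx
      subst hx
      exact mem_span_singleton.mpr ⟨γ, h2.symm⟩
  · rw [span_singleton_le_iff_mem, mem_span_pair]
    exact ⟨δ, ε, by rw [h3]; ring⟩

end generic

end Fermat.Agent.H54
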