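import Fermat.Agent.H54.CycloKummerDedekind

/-!
# Principal primes of `ℤ[ζ₁₃]` above the split primes `53, 79, 131, 157` (helper54)

Sub-task B13(b) of the S10 Kummer route: for each `q ∈ {53, 79, 131, 157}` there is a principal
prime ideal of `𝓞 ℚ(ζ₁₃)` above `q`. Generators (found by computer search, verified here by
`linear_combination` against `1 + θ + ⋯ + θ¹² = 0`):
`53 : 1 + θ + θ³`, `79 : 1 + θ - θ⁴`, `131 : 1 - θ - θ³`, `157 : 1 - θ + θ² + θ⁴`.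
-/

set_option autoImplicit false

namespace Fermat.Agent.H54

open NumberField Ideal

variable (K : Type) [Field K] [NumberField K] [IsCyclotomicExtension {13} ℚ K]

local instance fact_prime_thirteen : Fact (Nat.Prime 13) := ⟨by norm_num⟩

theorem theta_thirteen_rel :
    1 + theta 13 K + theta 13 K ^ 2 + theta 13 K ^ 3 + theta 13 K ^ 4 + theta 13 K ^ 5
      + theta 13 K ^ 6 + theta 13 K ^ 7 + theta 13 K ^ 8 + theta 13 K ^ 9 + theta 13 K ^ 10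
      + theta 13 K ^ 11 + theta 13 K ^ 12 = 0 := by
  have h := sum_theta_pow 13 K
  simpa [Finset.sum_range_succ] using h

theorem exists_principal_prime_over_53 :
    ∃ P ∈ primesOver (span {((53 : ℕ) : ℤ)}) (𝓞 K), Submodule.IsPrincipal P := by
  have : Fact (Nat.Prime 53) := ⟨by norm_num⟩
  have hrel := theta_thirteen_rel K
  set t := theta 13 K with ht
  refine exists_principal_prime_over_of_cert 13 K 53 (-17) ?_
    (1 + t + t ^ 3)
    (1 - 24 * t - 35 * t ^ 2 - 25 * t ^ 3 - 10 * t ^ 4 - 14 * t ^ 5 - 20 * t ^ 6 - 29 * t ^ 7 - 16 * t ^ 8 - 23 * t ^ 9 - 7 * t ^ 10 - 36 * t ^ 11)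
    (1 - 7 * t - 11 * t ^ 2 - 8 * t ^ 3 - 3 * t ^ 4 - 4 * t ^ 5 - 6 * t ^ 6 - 9 * t ^ 7 - 5 * t ^ 8 - 7 * t ^ 9 - 2 * t ^ 10 - 11 * t ^ 11)
    (-93)
    (290 - 17 * t + t ^ 2) ?_ ?_ ?_
  · decide
  · push_cast
    linear_combination (-52 + 29 * t - 36 * t ^ 2) * hrel
  · push_cast
    linear_combination (-16 + 9 * t - 11 * t ^ 2) * hrel
  · push_cast
    ring

theorem exists_principal_prime_over_79 :
    ∃ P ∈ primesOver (span {((79 : ℕ) : ℤ)}) (𝓞 K), Submodule.IsPrincipal P := by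
  have : Fact (Nat.Prime 79) := ⟨by norm_num⟩
  have hrel := theta_thirteen_rel K
  set t := theta 13 K with ht
  refine exists_principal_prime_over_of_cert 13 K 79 (-15) ?_
    (1 + t - t ^ 4)
    (24 - 25 * t - 27 * t ^ 2 + 10 * t ^ 3 - 3 * t ^ 4 - 39 * t ^ 5 - 5 * t ^ 6 - 2 * t ^ 7 - 18 * t ^ 8 - 38 * t ^ 9 + 16 * t ^ 10 - 35 * t ^ 11)
    (5 - 4 * t - 5 * t ^ 2 + 2 * t ^ 3 - 7 * t ^ 5 - t ^ 6 - 3 * t ^ 8 - 7 * t ^ 9 + 3 * t ^ 10 - 6 * t ^ 11)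
    (-641)
    (3376 - 225 * t + 15 * t ^ 2 - t ^ 3) ?_ ?_ ?_
  · decide
  · push_cast
    linear_combination (-55 + 54 * t - 51 * t ^ 2 + 35 * t ^ 3) * hrel
  · push_cast
    linear_combination (-10 + 10 * t - 9 * t ^ 2 + 6 * t ^ 3) * hrel
  · push_cast
    ring

theorem exists_principal_prime_over_131 :
    ∃ P ∈ primesOver (span {((131 : ℕ) : ℤ)}) (𝓞 K), Submodule.IsPrincipal P := by
  have : Fact (Nat.Prime 131) := ⟨by norm_num⟩
  have hrel := theta_thirteen_rel K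
  set t := theta 13 K with ht
  refine exists_principal_prime_over_of_cert 13 K 131 (-51) ?_
    (1 - t - t ^ 3)
    (111 + 78 * t + 17 * t ^ 2 + 67 * t ^ 3 + 84 * t ^ 4 + 40 * t ^ 5 + 46 * t ^ 6 + 69 * t ^ 7 + 48 * t ^ 8 + 33 * t ^ 9 + 41 * t ^ 10 + 28 * t ^ 11)
    (43 + 31 * t + 7 * t ^ 2 + 26 * t ^ 3 + 33 * t ^ 4 + 16 * t ^ 5 + 18 * t ^ 6 + 27 * t ^ 7 + 19 * t ^ 8 + 13 * t ^ 9 + 16 * t ^ 10 + 11 * t ^ 11)
    (1013)
    (-2602 + 51 * t - t ^ 2) ?_ ?_ ?_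
  · decide
  · push_cast
    linear_combination (-20 - 13 * t - 28 * t ^ 2) * hrel
  · push_cast
    linear_combination (-8 - 5 * t - 11 * t ^ 2) * hrel
  · push_cast
    ring

theorem exists_principal_prime_over_157 :
    ∃ P ∈ primesOver (span {((157 : ℕ) : ℤ)}) (𝓞 K), Submodule.IsPrincipal P := by
  have : Fact (Nat.Prime 157) := ⟨by norm_num⟩
  have hrel := theta_thirteen_rel K
  set t := theta 13 K with ht
  refine exists_principal_prime_over_of_cert 13 K 157 (75) ?_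
    (1 - t + t ^ 2 + t ^ 4)
    (89 + 86 * t + 42 * t ^ 2 + 77 * t ^ 3 + 67 * t ^ 4 + 25 * t ^ 5 + 37 * t ^ 6 + 56 * t ^ 7 + 73 * t ^ 8 + 113 * t ^ 9 + 124 * t ^ 10 + 76 * t ^ 11)
    (-43 - 41 * t - 20 * t ^ 2 - 37 * t ^ 3 - 32 * t ^ 4 - 12 * t ^ 5 - 18 * t ^ 6 - 27 * t ^ 7 - 35 * t ^ 8 - 54 * t ^ 9 - 59 * t ^ 10 - 36 * t ^ 11)
    (201568)
    (421949 + 5626 * t + 75 * t ^ 2 + t ^ 3) ?_ ?_ ?_
  · decide
  · push_cast
    linear_combination (-68 + 65 * t + 48 * t ^ 2 + 76 * t ^ 3) * hrel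
  · push_cast
    linear_combination (32 - 31 * t - 23 * t ^ 2 - 36 * t ^ 3) * hrel
  · push_cast
    ring

end Fermat.Agent.H54
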