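import Fermat.Agent.H54.PIDThirteenSplit

/-!
# A principal prime of `ℤ[ζ₁₃]` above `3` (helper54)

`3` has inertia degree `3` in `ℚ(ζ₁₃)`; `X³ - X - 1` is an irreducible factor of `Φ₁₃` mod `3`,
and the prime `span {3, θ³ - θ - 1}` is generated by `1 + θ - θ³` (an element of norm `27`).
-/

set_option autoImplicit false

namespace Fermat.Agent.H54

open NumberField Ideal Polynomial

variable (K : Type) [Field K] [NumberField K] [IsCyclotomicExtension {13} ℚ K]

attribute [local instance] fact_prime_thirteen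

theorem cubic_map_three :
    (X ^ 3 - X - 1 : ℤ[X]).map (Int.castRingHom (ZMod 3)) = (X ^ 3 - X - 1 : (ZMod 3)[X]) := by
  simp

theorem cubic_natDegree_three : (X ^ 3 - X - 1 : (ZMod 3)[X]).natDegree = 3 := by
  compute_degree!

theorem cubic_monic_three : (X ^ 3 - X - 1 : (ZMod 3)[X]).Monic := by
  monicity!

theorem cubic_irreducible_three : Irreducible (X ^ 3 - X - 1 : (ZMod 3)[X]) := by
  apply irreducible_of_degree_le_three_of_not_isRoot
  · rw [cubic_natDegree_three]; decide
  · intro x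
    simp only [IsRoot.def, eval_sub, eval_pow, eval_X, eval_one]
    revert x
    decide

theorem cubic_dvd_cyclotomic_three :
    (X ^ 3 - X - 1 : (ZMod 3)[X]) ∣ cyclotomic 13 (ZMod 3) := by
  have h3 : (3 : (ZMod 3)[X]) = 0 := by
    have h := CharP.cast_eq_zero (ZMod 3)[X] 3
    exact_mod_cast h
  refine ⟨-1 - X ^ 2 - X ^ 3 + X ^ 5 - X ^ 7 + X ^ 8 + X ^ 9, ?_⟩
  rw [cyclotomic_prime]
  simp only [Finset.sum_range_succ, Finset.sum_range_zero]
  linear_combination (X ^ 5 + X ^ 6 + X ^ 9 + X ^ 10 : (ZMod 3)[X]) * h3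

theorem exists_principal_prime_over_3 :
    ∃ P ∈ primesOver (span {((3 : ℕ) : ℤ)}) (𝓞 K), Submodule.IsPrincipal P := by
  have : Fact (Nat.Prime 3) := ⟨by norm_num⟩
  have hrel := theta_thirteen_rel K
  have hmem := span_pair_mem_primesOver 13 K 3 (X ^ 3 - X - 1)
    (by rw [cubic_map_three]; exact cubic_irreducible_three)
    (by rw [cubic_map_three]; exact cubic_monic_three)
    (by rw [cubic_map_three]; exact cubic_dvd_cyclotomic_three)
  have haeval : aeval (theta 13 K) (X ^ 3 - X - 1 : ℤ[X]) = theta 13 K ^ 3 - theta 13 K - 1 := by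
    simp
  rw [haeval] at hmem
  set t := theta 13 K with ht
  refine ⟨_, hmem, ⟨1 + t - t ^ 3, ?_⟩⟩
  change span {((3 : ℕ) : 𝓞 K), t ^ 3 - t - 1} = span {1 + t - t ^ 3}
  apply le_antisymm
  · rw [span_le]
    rintro x hx
    rcases hx with rfl | hx
    · refine mem_span_singleton.mpr
        ⟨-1 - t ^ 2 - t ^ 3 - 2 * t ^ 5 - t ^ 7 - 2 * t ^ 8 + t ^ 9 - 3 * t ^ 10, ?_⟩
      push_cast
      linear_combination (-(-4 + 3 * t)) * hrel
    · rw [Set.mem_singleton_iff] at hx
      subst hx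
      exact mem_span_singleton.mpr ⟨-1, by ring⟩
  · rw [span_singleton_le_iff_mem, mem_span_pair]
    exact ⟨0, -1, by ring⟩

end Fermat.Agent.H54
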