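import Mathlib

/-!
# S14 / C3-D : the class-group relation coming from a principal ideal

For a Dedekind domain `R`, a homomorphism `F` from the class group to a commutative group `G`
and a nonzero element `x`, the factorisation `(x) = ∏ v ^ n_v` gives `∏ F [v] ^ n_v = 1`.
If `G` has exponent `p` and `p ∣ n_v` outside a finite set `T`, the product can be restricted
to `T`.
-/

set_option autoImplicit false

open IsDedekindDomain nonZeroDivisors

namespace Fermat.Agent.H54

section Dedekind

variable {R : Type*} [CommRing R] [IsDedekindDomain R]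

/-- A height-one prime as a nonzero ideal. -/
noncomputable def primeNZ (v : HeightOneSpectrum R) : (Ideal R)⁰ :=
  ⟨v.asIdeal, mem_nonZeroDivisors_of_ne_zero v.ne_bot⟩

@[simp] theorem coe_primeNZ (v : HeightOneSpectrum R) : (primeNZ v : Ideal R) = v.asIdeal := rfl

/-- The `v`-adic valuation (as a natural number) of a nonzero ideal. -/
noncomputable def vCount (v : HeightOneSpectrum R) (I : Ideal R) : ℕ :=
  (Associates.mk v.asIdeal).count (Associates.mk I).factors

theorem finite_mulSupport_primeNZ_pow {I : Ideal R} (hI : I ≠ 0) :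
    (Function.mulSupport fun v : HeightOneSpectrum R => primeNZ v ^ vCount v I).Finite := by
  have h : (Function.mulSupport fun v : HeightOneSpectrum R => v.maxPowDividing I).Finite :=
    Ideal.hasFiniteMulSupport hI
  refine h.subset ?_
  intro v hv
  rw [Function.mem_mulSupport] at hv ⊢
  intro h1
  apply hv
  apply Subtype.ext
  simpa [HeightOneSpectrum.maxPowDividing, vCount] using h1

/-- Factorisation of a nonzero ideal, inside the monoid of nonzero ideals. -/
theorem finprod_primeNZ_pow (I : (Ideal R)⁰) :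
    ∏ᶠ v : HeightOneSpectrum R, primeNZ v ^ vCount v (I : Ideal R) = I := by
  have hI : (I : Ideal R) ≠ 0 := nonZeroDivisors.coe_ne_zero I
  apply Subtype.ext
  have h1 := map_finprod (Submonoid.subtype (Ideal R)⁰) (finite_mulSupport_primeNZ_pow hI)
  have h2 : (Submonoid.subtype (Ideal R)⁰)
      (∏ᶠ v : HeightOneSpectrum R, primeNZ v ^ vCount v (I : Ideal R)) =
      ((∏ᶠ v : HeightOneSpectrum R, primeNZ v ^ vCount v (I : Ideal R) : (Ideal R)⁰) :
        Ideal R) := rfl
  rw [← h2, h1]
  refine Eq.trans ?_ (Ideal.finprod_heightOneSpectrum_factorization hI)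
  apply finprod_congr
  intro v
  simp [HeightOneSpectrum.maxPowDividing, vCount]

variable {G : Type*} [CommGroup G]

/-- The class of a nonzero ideal under a homomorphism `F`, as a product over the primes. -/
theorem classHom_eq_finprod (F : ClassGroup R →* G) (I : (Ideal R)⁰) :
    F (ClassGroup.mk0 I) =
      ∏ᶠ v : HeightOneSpectrum R, F (ClassGroup.mk0 (primeNZ v)) ^ vCount v (I : Ideal R) := by
  have hI : (I : Ideal R) ≠ 0 := nonZeroDivisors.coe_ne_zero I
  have h1 := map_finprod (F.comp ClassGroup.mk0) (finite_mulSupport_primeNZ_pow hI)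
  rw [finprod_primeNZ_pow I] at h1
  rw [MonoidHom.comp_apply] at h1
  rw [h1]
  apply finprod_congr
  intro v
  rw [MonoidHom.comp_apply, map_pow, map_pow]

/-- **Class-group relation.**  If `x ≠ 0`, `G` is killed by `p` and `p` divides the `v`-adic
valuation of `x` for all `v` outside the finite set `T`, then
`∏_{v ∈ T} F [v] ^ v(x) = 1`. -/
theorem classHom_prod_eq_one (F : ClassGroup R →* G) (p : ℕ) (hG : ∀ g : G, g ^ p = 1)
    (x : R) (hx : x ≠ 0) (T : Finset (HeightOneSpectrum R))
    (hoff : ∀ v : HeightOneSpectrum R, v ∉ T → p ∣ vCount v (Ideal.span {x})) :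
    ∏ v ∈ T, F (ClassGroup.mk0 (primeNZ v)) ^ vCount v (Ideal.span {x}) = 1 := by
  have hI0 : Ideal.span {x} ≠ (0 : Ideal R) := by
    simpa [Ideal.span_singleton_eq_bot] using hx
  let I : (Ideal R)⁰ := ⟨Ideal.span {x}, mem_nonZeroDivisors_of_ne_zero hI0⟩
  have h1 : ClassGroup.mk0 I = 1 :=
    (ClassGroup.mk0_eq_one_iff I.2).2 ⟨⟨x, rfl⟩⟩
  have h2 := classHom_eq_finprod F I
  rw [h1, map_one] at h2
  rw [h2]
  symm
  apply finprod_eq_prod_of_mulSupport_subset
  intro v hv
  rw [Function.mem_mulSupport] at hv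
  by_contra hvT
  apply hv
  obtain ⟨k, hk⟩ := hoff v (by simpa using hvT)
  have : vCount v (I : Ideal R) = p * k := hk
  rw [this, pow_mul, hG, one_pow]

/-- Indexed form of `classHom_prod_eq_one`: the exceptional primes are given as an injective
family `Q : ι → HeightOneSpectrum R` with prescribed valuations `r i`. -/
theorem classHom_prod_family_eq_one {ι : Type*} [Fintype ι] (F : ClassGroup R →* G) (p : ℕ)
    (hG : ∀ g : G, g ^ p = 1) (x : R) (hx : x ≠ 0) (Q : ι → HeightOneSpectrum R)
    (hQ : Function.Injective Q) (r : ι → ℕ) (hr : ∀ i, vCount (Q i) (Ideal.span {x}) = r i)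
    (hoff : ∀ v : HeightOneSpectrum R, (∀ i, v ≠ Q i) → p ∣ vCount v (Ideal.span {x})) :
    ∏ i, F (ClassGroup.mk0 (primeNZ (Q i))) ^ r i = 1 := by
  classical
  have h := classHom_prod_eq_one F p hG x hx (Finset.univ.image Q) (fun v hv => by
    apply hoff
    intro i hi
    apply hv
    rw [hi]
    exact Finset.mem_image_of_mem _ (Finset.mem_univ _))
  rw [Finset.prod_image (fun a _ b _ hab => hQ hab)] at h
  rw [← h]
  apply Finset.prod_congr rfl
  intro i _
  rw [hr]

/-- The valuation `vCount v (x)` is characterised by `x ∈ v^r`, `x ∉ v^(r+1)`. -/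
theorem vCount_span_singleton_eq (v : HeightOneSpectrum R) (x : R) (hx : x ≠ 0) (r : ℕ)
    (h1 : x ∈ v.asIdeal ^ r) (h2 : x ∉ v.asIdeal ^ (r + 1)) :
    vCount v (Ideal.span {x}) = r := by
  have hI0 : Ideal.span {x} ≠ (0 : Ideal R) := by
    simpa [Ideal.span_singleton_eq_bot] using hx
  have hm : Associates.mk (Ideal.span {x}) ≠ 0 := Associates.mk_ne_zero.2 hI0
  have hirr : Irreducible (Associates.mk v.asIdeal) := Associates.irreducible_mk.2 v.irreducible
  have key : ∀ k : ℕ, x ∈ v.asIdeal ^ k ↔ k ≤ vCount v (Ideal.span {x}) := by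
    intro k
    rw [vCount, ← Associates.prime_pow_dvd_iff_le hm hirr, ← Associates.mk_pow,
      Associates.mk_le_mk_iff_dvd, Ideal.dvd_iff_le,
      Ideal.span_singleton_le_iff_mem]
  have hle := (key r).1 h1
  have hlt : ¬ (r + 1 ≤ vCount v (Ideal.span {x})) := fun h => h2 ((key (r + 1)).2 h)
  omega

end Dedekind

end Fermat.Agent.H54
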